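import Mathlib.Computability.PartrecCode
import Mathlib.Computability.RE
import Mathlib.Data.Nat.Log
import Mathlib.Data.Set.Finite.Basic
import Mathlib.Tactic.Positivity
import Mathlib.Tactic.Ring

/-!
# A universal machine on binary programs

The numbers stand for the binary words, `p` for the digits of `p + 1` after the leading one, so its
length is `Nat.log 2 (p + 1)`. If `p + 1 = 2 ^ e * (2 * m + 1)` the machine runs the program `e`
on `m`.
-/

set_option autoImplicit false

namespace FA.KolmogorovComplexity

open Nat.Partrec (Code)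

/-- The length of the word of a number. -/
def programLength (p : ℕ) : ℕ := Nat.log 2 (p + 1)

/-- One halving of an even number, counted. -/
def halveStep (a : ℕ × ℕ) : ℕ × ℕ :=
  if a.1 % 2 = 0 then (a.1 / 2, a.2 + 1) else a

/-- The odd part and the exponent of two. -/
def oddSplit (n : ℕ) : ℕ × ℕ := halveStep^[n] (n, 0)

theorem iterate_halveStep (m k : ℕ) : ∀ e a : ℕ,
    halveStep^[e + k] (2 ^ e * (2 * m + 1), a) = (2 * m + 1, a + e)
  | 0, a => by
    have h : halveStep (2 * m + 1, a) = (2 * m + 1, a) :=
      if_neg (by simp [Nat.add_mod, Nat.mul_mod_right])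
    simp [Function.iterate_fixed h k]
  | e + 1, a => by
    rw [Nat.add_right_comm, Function.iterate_succ_apply,
      show halveStep (2 ^ (e + 1) * (2 * m + 1), a) = (2 ^ e * (2 * m + 1), a + 1) by
        rw [pow_succ, Nat.mul_right_comm]
        simp [halveStep],
      iterate_halveStep m k e (a + 1)]
    ring_nf

theorem oddSplit_two_pow (e m : ℕ) : oddSplit (2 ^ e * (2 * m + 1)) = (2 * m + 1, e) := by
  have h : e ≤ 2 ^ e * (2 * m + 1) :=
    e.lt_two_pow_self.le.trans (Nat.le_mul_of_pos_right _ (by omega))
  obtain ⟨k, hk⟩ := Nat.exists_eq_add_of_le h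
  rw [oddSplit]
  conv_lhs => arg 2; rw [hk]
  rw [iterate_halveStep, Nat.zero_add]

/-- The universal machine. -/
def machine (p : ℕ) : Part ℕ :=
  Code.eval (Denumerable.ofNat Code (oddSplit (p + 1)).2) ((oddSplit (p + 1)).1 / 2)

theorem primrec_oddSplit : Primrec oddSplit := by
  have hstep : Primrec halveStep :=
    Primrec.ite (Primrec.eq.comp (Primrec.nat_mod.comp Primrec.fst (Primrec.const 2))
      (Primrec.const 0)) (Primrec.pair (Primrec.nat_div.comp Primrec.fst (Primrec.const 2))
        (Primrec.succ.comp Primrec.snd)) Primrec.id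
  exact Primrec.nat_iterate Primrec.id (Primrec.pair Primrec.id (Primrec.const 0))
    (hstep.comp Primrec.snd).to₂

theorem partrec_machine : Nat.Partrec machine :=
  Partrec.nat_iff.1 (Code.eval_part.comp
    ((Computable.ofNat Code).comp (Computable.snd.comp (primrec_oddSplit.to_comp.comp
      Computable.succ)))
    ((Primrec.nat_div.comp Primrec.id (Primrec.const 2)).to_comp.comp
      (Computable.fst.comp (primrec_oddSplit.to_comp.comp Computable.succ))))

/-- **Universality.** Every partial recursive method is run by the machine with programs longer by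
a constant. -/
theorem exists_simulation {D : ℕ →. ℕ} (hD : Nat.Partrec D) :
    ∃ c, ∀ q, ∃ p, machine p = D q ∧ programLength p ≤ programLength q + c := by
  obtain ⟨code, rfl⟩ := Code.exists_code.1 hD
  refine ⟨Encodable.encode code + 1, fun q => ⟨2 ^ Encodable.encode code * (2 * q + 1) - 1, ?_⟩⟩
  have h1 : 2 ^ Encodable.encode code * (2 * q + 1) - 1 + 1 =
      2 ^ Encodable.encode code * (2 * q + 1) :=
    Nat.sub_add_cancel (Nat.one_le_iff_ne_zero.2 (by positivity))
  refine ⟨?_, ?_⟩
  · rw [machine, h1, oddSplit_two_pow, Denumerable.ofNat_encode]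
    congr 1
    omega
  · rw [programLength, h1, programLength]
    refine (Nat.log_mono_right (b := 2)
      (show 2 ^ Encodable.encode code * (2 * q + 1) ≤
        (q + 1) * 2 ^ (Encodable.encode code + 1) by
        rw [pow_succ, ← mul_assoc, mul_comm (q + 1), mul_assoc]
        gcongr
        omega)).trans ?_
    generalize Encodable.encode code + 1 = j
    induction j with
    | zero => simp
    | succ j ih =>
      rw [pow_succ, ← mul_assoc, Nat.log_mul_base one_lt_two (by positivity)]
      omega

theorem exists_program (x : ℕ) : ∃ l p, x ∈ machine p ∧ programLength p = l := by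
  obtain ⟨c, hc⟩ := exists_simulation (D := fun q => Part.some q)
    (Nat.Partrec.of_primrec Nat.Primrec.id)
  obtain ⟨p, hp, -⟩ := hc x
  exact ⟨_, p, hp ▸ Part.mem_some x, rfl⟩

open Classical in
/-- The complexity of a number: the least length of a program for it. -/
noncomputable def complexity (x : ℕ) : ℕ := Nat.find (exists_program x)

theorem complexity_le_of_mem {p x : ℕ} (h : x ∈ machine p) : complexity x ≤ programLength p := by
  classical
  exact Nat.find_min' _ ⟨p, h, rfl⟩

theorem exists_shortest (x : ℕ) : ∃ p, x ∈ machine p ∧ programLength p = complexity x := by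
  classical
  exact Nat.find_spec (exists_program x)

theorem finite_complexity_lt (k : ℕ) :
    ∃ S : Finset ℕ, S.card < 2 ^ k ∧ ∀ x, complexity x < k → x ∈ S := by
  classical
  let F := (Finset.range (2 ^ k - 1)).filter fun p => (machine p).Dom
  refine ⟨F.attach.image fun p : { p // p ∈ F } =>
    (machine p.1).get (Finset.mem_filter.1 p.2).2, ?_, fun x hx => ?_⟩
  · refine Finset.card_image_le.trans_lt ?_
    rw [Finset.card_attach]
    refine (Finset.card_filter_le _ _).trans_lt ?_
    rw [Finset.card_range]
    exact Nat.sub_lt (by positivity) one_pos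
  · obtain ⟨p, ⟨hd, rfl⟩, hp⟩ := exists_shortest x
    rw [← hp, programLength] at hx
    have := Nat.lt_pow_of_log_lt one_lt_two hx
    exact Finset.mem_image.2 ⟨⟨p, Finset.mem_filter.2 ⟨Finset.mem_range.2 (by omega), hd⟩⟩,
      Finset.mem_attach _ _, rfl⟩

theorem rePred_complexity_le : REPred fun n : ℕ => complexity n.unpair.1 ≤ n.unpair.2 := by
  obtain ⟨c, hc⟩ := Code.exists_code.1 partrec_machine
  let test : ℕ → ℕ → Bool := fun n N =>
    decide (N.unpair.1 + 1 < 2 ^ (n.unpair.2 + 1)) &&
      decide (Code.evaln N.unpair.2 c N.unpair.1 = some n.unpair.1)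
  have hpow : Primrec₂ fun a b : ℕ => a ^ b := Primrec₂.unpaired'.1 Nat.Primrec.pow
  have hp : Primrec fun q : ℕ × ℕ => q.2.unpair.1 :=
    Primrec.fst.comp (Primrec.unpair.comp Primrec.snd)
  have htest : Computable₂ test := (Primrec.and.comp
    (Primrec.nat_lt.comp (Primrec.succ.comp hp) (hpow.comp (Primrec.const 2)
      (Primrec.succ.comp (Primrec.snd.comp (Primrec.unpair.comp Primrec.fst))))).decide
    (Primrec.eq.comp (Code.primrec_evaln.comp (Primrec.pair (Primrec.pair
        (Primrec.snd.comp (Primrec.unpair.comp Primrec.snd)) (Primrec.const c)) hp))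
      (Primrec.option_some.comp (Primrec.fst.comp (Primrec.unpair.comp Primrec.fst)))).decide
    ).to_comp.to₂
  refine (Partrec.rfind htest.partrec₂).dom_re.of_eq fun n => ?_
  refine Iff.trans (show _ ↔ ∃ N, test n N = true by simp [Nat.rfind_dom]) ?_
  simp only [test, Bool.and_eq_true, decide_eq_true_eq]
  constructor
  · rintro ⟨N, hlen, hN⟩
    have h1 : n.unpair.1 ∈ machine N.unpair.1 := hc ▸ Code.evaln_sound hN
    exact (complexity_le_of_mem h1).trans
      (Nat.lt_succ_iff.1 (Nat.log_lt_of_lt_pow (Nat.succ_ne_zero _) hlen))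
  · intro h
    obtain ⟨p, hp, hl⟩ := exists_shortest n.unpair.1
    rw [← hc] at hp
    obtain ⟨s, hs⟩ := Code.evaln_complete.1 hp
    refine ⟨Nat.pair p s, ?_, by simpa using hs⟩
    rw [Nat.unpair_pair]
    change p + 1 < 2 ^ (n.unpair.2 + 1)
    exact Nat.lt_pow_of_log_lt one_lt_two (by
      rw [programLength] at hl
      omega)

/-- **No certified large lower bounds.** An enumerable set of valid lower bounds is bounded. -/
theorem exists_bound_of_rePred {R : ℕ → ℕ → Prop}
    (hR : REPred fun n : ℕ => R n.unpair.1 n.unpair.2) (hsound : ∀ x l, R x l → l < complexity x) :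
    ∃ L, ∀ x l, R x l → l < L := by
  obtain ⟨c, hc⟩ := Code.exists_code.1 (Partrec.nat_iff.1 (hR.map
    ((Computable.const 0).to₂ : Computable₂ fun (_ : ℕ) (_ : Unit) => 0)))
  let test : ℕ → ℕ → Bool := fun q N =>
    decide (q ≤ N.unpair.1.unpair.2) && (Code.evaln N.unpair.2 c N.unpair.1).isSome
  have hk : Primrec fun a : ℕ × ℕ => a.2.unpair.1 :=
    Primrec.fst.comp (Primrec.unpair.comp Primrec.snd)
  have htest : Computable₂ test := (Primrec.and.comp
    (Primrec.nat_le.comp Primrec.fst (Primrec.snd.comp (Primrec.unpair.comp hk))).decide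
    (Primrec.option_isSome.comp (Code.primrec_evaln.comp (Primrec.pair (Primrec.pair
      (Primrec.snd.comp (Primrec.unpair.comp Primrec.snd)) (Primrec.const c)) hk)))).to_comp.to₂
  have hD : Nat.Partrec fun q =>
      (Nat.rfind fun N => Part.some (test q N)).map fun N => N.unpair.1.unpair.1 :=
    Partrec.nat_iff.1 ((Partrec.rfind htest.partrec₂).map
      (Computable.fst.comp (Computable.unpair.comp (Computable.fst.comp
        (Computable.unpair.comp Computable.snd)))).to₂)
  obtain ⟨d, hd⟩ := exists_simulation hD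
  by_contra! hbig
  obtain ⟨q, hq⟩ : ∃ q, programLength q + d < q := by
    refine ⟨2 ^ (d + 3), ?_⟩
    have h1 : programLength (2 ^ (d + 3)) < d + 4 := by
      refine Nat.log_lt_of_lt_pow (Nat.succ_ne_zero _) ?_
      have : 1 < 2 ^ (d + 3) := Nat.one_lt_two_pow (by omega)
      rw [pow_succ 2 (d + 3)]
      omega
    have h2 := (d + 1).lt_two_pow_self
    rw [show d + 3 = d + 1 + 2 from rfl, pow_add] at h1 ⊢
    omega
  obtain ⟨x, l, hxl, hql⟩ := hbig q
  have hdom : (c.eval (Nat.pair x l)).Dom := by
    rw [hc]
    exact ⟨by simpa using hxl, trivial⟩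
  obtain ⟨v, hv⟩ := Part.dom_iff_mem.1 hdom
  obtain ⟨s, hs⟩ := Code.evaln_complete.1 hv
  have hN : (Nat.rfind fun N => Part.some (test q N)).Dom :=
    Nat.rfind_dom.2 ⟨Nat.pair (Nat.pair x l) s,
      Part.mem_some_iff.2 (by simp [test, hql, Option.mem_def.1 hs]),
      fun {_} _ => trivial⟩
  obtain ⟨N, hmem⟩ := Part.dom_iff_mem.1 hN
  have hspec : test q N = true := (Part.mem_some_iff.1 (Nat.rfind_spec hmem)).symm
  simp only [test, Bool.and_eq_true, decide_eq_true_eq, Option.isSome_iff_exists] at hspec
  obtain ⟨hle, v', hv'⟩ := hspec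
  have hR' : R N.unpair.1.unpair.1 N.unpair.1.unpair.2 := by
    have := Part.dom_iff_mem.2 ⟨v', Code.evaln_sound hv'⟩
    rw [hc] at this
    exact this.1
  obtain ⟨p, hp, hlen⟩ := hd q
  have hx : complexity N.unpair.1.unpair.1 ≤ programLength p :=
    complexity_le_of_mem (by rw [hp]; exact Part.mem_map _ hmem)
  have := hsound _ _ hR'
  omega

end FA.KolmogorovComplexity
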